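/-
S43lib / B0 / Toric / Swap  (helper6)  — Project H, block B0 (Mazur's principle), brick (T2).

THE ANTI-FROBENIAL AUTOMORPHISMS OF A NODAL DATUM.

`τ` a semilinear automorphism of `F / L` which EXCHANGES the two Gauss valuation rings of the nodal
datum `D`, inducing ring homomorphisms `ψ₁ : F₁ → F₂`, `ψ₂ : F₂ → F₁` on the residue function fields
which are `c ↦ c ^ Q` on the constants and carry (the maximal ideal of) the node place `x₁ c` into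
that of `x₂ c`, resp. `x₂ c` into `x₁ c` (THE SAME node `c`: `τ` fixes every node and exchanges its
two branches).  The first chart divisor only has to satisfy `τ • P₁ ≤ d • P₁` for some `d`.
(Modular case `N = M r`, `A ∣ r`: `τ = w_r ∘ φ`, `φ` a Frobenius lift in the decomposition group of
`A`, `Q = r`, `ψ₁ = ψ₂ =` the coefficientwise `r`-Frobenius of `FRes A M`, `P₁ = (j)_∞`.)

* `IsAntiFrobenial D τ Q ψ₁ ψ₂` : the structure;
* `IsAntiFrobenial.isKummerUnit_mul` : for a Kummer unit `u`, `τ u · u ^ Q` is a Kummer unit which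
  reduces to THE SAME nonzero constant on both components;
* `twist_eq_one_of_isAntiFrobenial` : the twist (structure lemma) of the normalised unit is trivial;
* **`exists_eq_const_mul_pow_of_isAntiFrobenial`** : `τ u · u ^ Q = c · h ^ n`;
* **`antiFrobenial_divisor`** : if `n • D₀ = div u`, `u` a Kummer unit, then `τ • D₀ + Q • D₀` is
  principal:   `τ = - Q`  ON THE TORIC PART.
-/
import Fermat.Agent.LSc.Core.Frobenial

set_option autoImplicit false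

noncomputable section

namespace Fermat.Agent.S43lib.B0

open AlgebraicCurve Module Fermat.Agent.LSb Fermat.Agent.LSc

variable {L : Type*} [Field L] {A : ValuationSubring L}
variable {F : Type*} [Field F] [Algebra L F]
variable {F₁ F₂ : Type*} [Field F₁] [Field F₂]
variable [Algebra (IsLocalRing.ResidueField A) F₁] [Algebra (IsLocalRing.ResidueField A) F₂]

local notation "k" => IsLocalRing.ResidueField A

/-- A semilinear automorphism `τ` of `F / L` acting like `(Atkin–Lehner) ∘ (Frobenius lift)`: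
it EXCHANGES the two Gauss valuation rings, induces on the residue function fields ring
homomorphisms `ψ₁ : F₁ → F₂`, `ψ₂ : F₂ → F₁` over `c ↦ c ^ Q`, fixes every node (exchanging its
two branches), and does not enlarge the support of the first chart divisor. -/
structure IsAntiFrobenial (D : NodalDatum A F F₁ F₂) (τ : SemilinearAut L F) (Q : ℕ)
    (ψ₁ : F₁ →+* F₂) (ψ₂ : F₂ →+* F₁) : Prop where
  mem₁ : ∀ y : F, y ∈ D.V₁.O → τ • y ∈ D.V₂.O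
  mem₂ : ∀ y : F, y ∈ D.V₂.O → τ • y ∈ D.V₁.O
  red₁ : ∀ y : F, y ∈ D.V₁.O → D.V₂.redF (τ • y) = ψ₁ (D.V₁.redF y)
  red₂ : ∀ y : F, y ∈ D.V₂.O → D.V₁.redF (τ • y) = ψ₂ (D.V₂.redF y)
  base₁ : ∀ c : k, ψ₁ (algebraMap k F₁ c) = algebraMap k F₂ (c ^ Q)
  base₂ : ∀ c : k, ψ₂ (algebraMap k F₂ c) = algebraMap k F₁ (c ^ Q)
  node₁ : ∀ (c : Fin D.s) (φ : F₁), Core.VanishAt (D.x₁ c) φ → Core.VanishAt (D.x₂ c) (ψ₁ φ)
  node₂ : ∀ (c : Fin D.s) (φ : F₂), Core.VanishAt (D.x₂ c) φ → Core.VanishAt (D.x₁ c) (ψ₂ φ)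
  P₁_le : ∃ d : ℕ, ∀ P : Place L F, (τ • D.P₁) P ≤ (d : ℤ) * D.P₁ P

namespace IsAntiFrobenial

variable {D : NodalDatum A F F₁ F₂} {τ : SemilinearAut L F} {Q : ℕ}
variable {ψ₁ : F₁ →+* F₂} {ψ₂ : F₂ →+* F₁}

theorem smul_mem_O (hτ : IsAntiFrobenial D τ Q ψ₁ ψ₂) {y : F} (hy : y ∈ D.O) : τ • y ∈ D.O := by
  rw [NodalDatum.mem_O] at hy ⊢
  exact ⟨hτ.mem₂ y hy.2, hτ.mem₁ y hy.1⟩

/-- values at the node: first to second branch -/
theorem valAt₁ (hτ : IsAntiFrobenial D τ Q ψ₁ ψ₂) (hd : ∀ v : Place k F₁, v.deg = 1)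
    (c : Fin D.s) {φ : F₁} (hφ : φ ∈ (D.x₁ c).toValuationSubring) :
    ψ₁ φ ∈ (D.x₂ c).toValuationSubring ∧
      Core.valAt (D.x₂ c) (ψ₁ φ) = Core.valAt (D.x₁ c) φ ^ Q := by
  have h := Core.vanishAt_sub_valAt (D.x₁ c) (hd _) hφ
  have h2 := hτ.node₁ c _ h
  rw [map_sub, hτ.base₁] at h2
  refine ⟨?_, Core.valAt_eq_of_vanishAt h2⟩
  have := add_mem h2.mem ((D.x₂ c).algebraMap_mem' (Core.valAt (D.x₁ c) φ ^ Q))
  rwa [sub_add_cancel] at this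

/-- values at the node: second to first branch -/
theorem valAt₂ (hτ : IsAntiFrobenial D τ Q ψ₁ ψ₂) (hd : ∀ v : Place k F₂, v.deg = 1)
    (c : Fin D.s) {φ : F₂} (hφ : φ ∈ (D.x₂ c).toValuationSubring) :
    ψ₂ φ ∈ (D.x₁ c).toValuationSubring ∧
      Core.valAt (D.x₁ c) (ψ₂ φ) = Core.valAt (D.x₂ c) φ ^ Q := by
  have h := Core.vanishAt_sub_valAt (D.x₂ c) (hd _) hφ
  have h2 := hτ.node₂ c _ h
  rw [map_sub, hτ.base₂] at h2
  refine ⟨?_, Core.valAt_eq_of_vanishAt h2⟩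
  have := add_mem h2.mem ((D.x₁ c).algebraMap_mem' (Core.valAt (D.x₂ c) φ ^ Q))
  rwa [sub_add_cancel] at this

/-- `τ u · u ^ Q` is a Kummer unit reducing to THE SAME nonzero constant on both components -/
theorem isKummerUnit_mul (hτ : IsAntiFrobenial D τ Q ψ₁ ψ₂) {n : ℕ} {u : F}
    (hu : IsKummerUnit D n u) :
    IsKummerUnit D n (τ • u * u ^ Q) ∧ ∃ β : k, β ≠ 0 ∧
      D.V₁.redF (τ • u * u ^ Q) = algebraMap k F₁ β ∧
      D.V₂.redF (τ • u * u ^ Q) = algebraMap k F₂ β := by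
  have hτu0 : τ • u ≠ 0 := by
    rw [SemilinearAut.smul_def]
    exact (map_ne_zero _).2 hu.ne_zero
  have huQ := kummerUnit_pow hu Q
  obtain ⟨b₁, hb₁0, hb₁⟩ := hu.red₁
  obtain ⟨b₂, hb₂0, hb₂⟩ := hu.red₂
  have hQ₁ : D.V₁.redF (u ^ Q) = algebraMap k F₁ (b₁ ^ Q) := by
    rw [D.V₁.redF_pow hu.mem₁, hb₁, map_pow]
  have hQ₂ : D.V₂.redF (u ^ Q) = algebraMap k F₂ (b₂ ^ Q) := by
    rw [D.V₂.redF_pow hu.mem₂, hb₂, map_pow]
  have h1 : D.V₁.redF (τ • u * u ^ Q) = algebraMap k F₁ ((b₁ * b₂) ^ Q) := by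
    rw [D.V₁.redF_mul (hτ.mem₂ u hu.mem₂) huQ.mem₁, hτ.red₂ u hu.mem₂, hb₂, hτ.base₂, hQ₁,
      ← map_mul, mul_pow, mul_comm]
  have h2 : D.V₂.redF (τ • u * u ^ Q) = algebraMap k F₂ ((b₁ * b₂) ^ Q) := by
    rw [D.V₂.redF_mul (hτ.mem₁ u hu.mem₁) huQ.mem₂, hτ.red₁ u hu.mem₁, hb₁, hτ.base₁, hQ₂,
      ← map_mul, mul_pow]
  have hβ : (b₁ * b₂) ^ Q ≠ 0 := pow_ne_zero Q (mul_ne_zero hb₁0 hb₂0)
  refine ⟨⟨mul_ne_zero hτu0 huQ.ne_zero, fun P => ?_, ⟨_, hβ, h1⟩, ⟨_, hβ, h2⟩⟩, _, hβ, h1, h2⟩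
  rw [P.ord_mul hτu0 huQ.ne_zero, NodalDatum.IsInertial.ord_smul_eq]
  exact dvd_add (hu.dvd_ord _) (huQ.dvd_ord _)

end IsAntiFrobenial

/-! ### normalisation of a Kummer unit with equal constant reductions -/

/-- a Kummer unit reducing to the same constant `β` on both components becomes, after division by
a lift of `β`, a Kummer unit reducing to `(1, 1)` -/
theorem exists_normalise {D : NodalDatum A F F₁ F₂} {n : ℕ} {z : F} (hz : IsKummerUnit D n z)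
    {β : k} (hβ : β ≠ 0) (h₁ : D.V₁.redF z = algebraMap k F₁ β)
    (h₂ : D.V₂.redF z = algebraMap k F₂ β) :
    ∃ a : A, (a : L) ≠ 0 ∧ IsKummerUnit D n (algebraMap L F (a : L) * z) ∧
      D.V₁.redF (algebraMap L F (a : L) * z) = 1 ∧ D.V₂.redF (algebraMap L F (a : L) * z) = 1 := by
  obtain ⟨a, ha'⟩ : ∃ a : A, IsLocalRing.residue A a = β⁻¹ :=
    Ideal.Quotient.mk_surjective (β⁻¹ : k)
  have ha0 : (a : L) ≠ 0 := by
    intro h0
    have : a = 0 := Subtype.ext h0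
    rw [this, map_zero] at ha'
    exact inv_ne_zero hβ ha'.symm
  have haF : algebraMap L F (a : L) ≠ 0 := (map_ne_zero _).2 ha0
  have e₁ : D.V₁.redF (algebraMap L F (a : L) * z) = 1 := by
    rw [D.V₁.redF_smul a hz.mem₁, ha', h₁, Algebra.smul_def, ← map_mul, inv_mul_cancel₀ hβ,
      map_one]
  have e₂ : D.V₂.redF (algebraMap L F (a : L) * z) = 1 := by
    rw [D.V₂.redF_smul a hz.mem₂, ha', h₂, Algebra.smul_def, ← map_mul, inv_mul_cancel₀ hβ,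
      map_one]
  refine ⟨a, ha0, ⟨mul_ne_zero haF hz.ne_zero, fun P => ?_, ⟨1, one_ne_zero, ?_⟩,
    ⟨1, one_ne_zero, ?_⟩⟩, e₁, e₂⟩
  · rw [P.ord_mul haF hz.ne_zero, S18lib.Cech.ord_const, zero_add]
    exact hz.dvd_ord P
  · rw [e₁, map_one]
  · rw [e₂, map_one]

section Main

variable {D : NodalDatum A F F₁ F₂} {g g₁ g₂ : ℕ}
variable {τ : SemilinearAut L F} {Q : ℕ} {ψ₁ : F₁ →+* F₂} {ψ₂ : F₂ →+* F₁}

/-- **(T2a)** the twist of the normalised unit `a · τ u · u ^ Q` is trivial. -/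
theorem twist_eq_one_of_isAntiFrobenial (C : NodalCtx D g g₁ g₂)
    (hτ : IsAntiFrobenial D τ Q ψ₁ ψ₂) {n : ℕ} (hn : 0 < n) {u : F} (hu : IsKummerUnit D n u)
    {a : L} (hz : IsKummerUnit D n (algebraMap L F a * (τ • u * u ^ Q))) :
    (∀ a' b : ℕ, ∀ h ∈ D.KLat n (algebraMap L F a * (τ • u * u ^ Q)) a' b,
      D.redF h ∈ Core.nodalSpace D.x₁ D.x₂ 1 (D.chartDiv₁ a' b) (D.chartDiv₂ a' b)) ∧
    (∀ a' b : ℕ, D.Stable g₁ g₂ a' b →
      ∀ φ ∈ Core.nodalSpace D.x₁ D.x₂ 1 (D.chartDiv₁ a' b) (D.chartDiv₂ a' b),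
        ∃ h ∈ D.KLat n (algebraMap L F a * (τ • u * u ^ Q)) a' b, D.redF h = φ) := by
  obtain ⟨lamu, hlamu0, -, Hequ⟩ := C.exists_twist_all hn hu
  obtain ⟨lamz, -, Hsubz, Heqz⟩ := C.exists_twist_all hn hz
  suffices hlam : lamz = 1 by
    rw [hlam] at Hsubz Heqz
    exact ⟨Hsubz, Heqz⟩
  funext c
  obtain ⟨d, hd⟩ := hτ.P₁_le
  set m : ℕ := 2 * g₁ + 2 * g₂ + D.s with hm
  have hst : D.Stable g₁ g₂ (m : ℕ) (0 : ℕ) :=
    C.stable_of_le_fst (by rw [hm]; push_cast; exact le_rfl) (by simp)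
  -- the generic section of `u`
  obtain ⟨φ, hφ, hφval⟩ := Core.exists_mem_nodalSpace_valAt C.hF₁ C.hF₂ C.x₁_injective
    C.x₂_injective lamu (D.chartDiv₁ m (0 : ℕ)) (D.chartDiv₂ m (0 : ℕ)) (C.chartDiv₁_x₁ _ _)
    (C.chartDiv₂_x₂ _ _) hst.1 hst.2 (fun _ => 1)
  obtain ⟨h, hh, hhφ⟩ := Hequ m 0 hst φ hφ
  have r1 : φ.1 ∈ (D.x₁ c).toValuationSubring :=
    Core.mem_of_mem_rr (C.chartDiv₁_x₁ _ _ c).le hφ.1
  have r2 : φ.2 ∈ (D.x₂ c).toValuationSubring :=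
    Core.mem_of_mem_rr (C.chartDiv₂_x₂ _ _ c).le hφ.2.1
  have hO := NodalDatum.mem_O.1 hh.1
  have e1 : D.V₁.redF h = φ.1 := congrArg Prod.fst hhφ
  have e2 : D.V₂.redF h = φ.2 := congrArg Prod.snd hhφ
  have hτO₁ : τ • h ∈ D.V₁.O := hτ.mem₂ h hO.2
  have hτO₂ : τ • h ∈ D.V₂.O := hτ.mem₁ h hO.1
  have hQO₁ : h ^ Q ∈ D.V₁.O := D.V₁.O.pow_mem hO.1 Q
  have hQO₂ : h ^ Q ∈ D.V₂.O := D.V₂.O.pow_mem hO.2 Q
  -- the element `t = τ(h) h ^ Q` of `KLat n z ((d + Q) m) 0`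
  have hτrr : τ • (h ^ n * u) ∈
      riemannRochSpace ((n : ℤ) • D.chartDiv ((d * m : ℕ) : ℕ) (0 : ℕ)) := by
    have h1 := S37lib.B3.smul_mem_riemannRochSpace τ hh.2
    refine S18lib.Cech.rr_mono (fun P => ?_) h1
    rw [S37lib.B3.smul_zsmul_divisor, Finsupp.smul_apply, Finsupp.smul_apply, smul_eq_mul,
      smul_eq_mul]
    refine mul_le_mul_of_nonneg_left ?_ (Int.natCast_nonneg n)
    rw [SemilinearAut.divisor_smul_apply, D.chartDiv_apply, D.chartDiv_apply]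
    have h2 := hd P
    rw [SemilinearAut.divisor_smul_apply] at h2
    have h3 : (0 : ℤ) ≤ m := Int.natCast_nonneg m
    push_cast
    nlinarith [mul_le_mul_of_nonneg_left h2 h3]
  have hadd : (n : ℤ) • D.chartDiv ((d * m : ℕ) : ℕ) (0 : ℕ) +
      Q • ((n : ℤ) • D.chartDiv (m : ℕ) (0 : ℕ)) =
      (n : ℤ) • D.chartDiv (((d + Q) * m : ℕ) : ℕ) (0 : ℕ) := by
    ext P
    rw [Finsupp.add_apply, Finsupp.smul_apply, Finsupp.smul_apply, Finsupp.smul_apply,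
      Finsupp.smul_apply, D.chartDiv_apply, D.chartDiv_apply, D.chartDiv_apply]
    simp only [smul_eq_mul, nsmul_eq_mul]
    push_cast
    ring
  have ht : τ • h * h ^ Q ∈
      D.KLat n (algebraMap L F a * (τ • u * u ^ Q)) (((d + Q) * m : ℕ) : ℕ) (0 : ℕ) := by
    refine ⟨NodalDatum.mem_O.2 ⟨D.V₁.O.mul_mem _ _ hτO₁ hQO₁, D.V₂.O.mul_mem _ _ hτO₂ hQO₂⟩, ?_⟩
    have h1 := S18lib.Cech.mul_mem_rr hτrr (S18lib.Cech.pow_mem_rr hh.2 Q)
    rw [hadd] at h1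
    have h2 := Submodule.smul_mem _ a h1
    have e : a • (τ • (h ^ n * u) * (h ^ n * u) ^ Q) =
        (τ • h * h ^ Q) ^ n * (algebraMap L F a * (τ • u * u ^ Q)) := by
      rw [Algebra.smul_def, smul_mul', smul_pow']
      ring
    rwa [e] at h2
  have hred := Hsubz ((d + Q) * m) 0 _ ht
  have h3 := ((Core.gluedAt_iff C.hF₁.deg_eq_one C.hF₂.deg_eq_one c _ _).1 (hred.2.2 c)).2.2
  have f1 : (D.redF (τ • h * h ^ Q)).1 = ψ₂ φ.2 * φ.1 ^ Q := by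
    show D.V₁.redF (τ • h * h ^ Q) = _
    rw [D.V₁.redF_mul hτO₁ hQO₁, hτ.red₂ h hO.2, D.V₁.redF_pow hO.1, e1, e2]
  have f2 : (D.redF (τ • h * h ^ Q)).2 = ψ₁ φ.1 * φ.2 ^ Q := by
    show D.V₂.redF (τ • h * h ^ Q) = _
    rw [D.V₂.redF_mul hτO₂ hQO₂, hτ.red₁ h hO.1, D.V₂.redF_pow hO.2, e1, e2]
  obtain ⟨m21, v21⟩ := hτ.valAt₂ C.hF₂.deg_eq_one c r2
  obtain ⟨m12, v12⟩ := hτ.valAt₁ C.hF₁.deg_eq_one c r1
  have g1 : Core.valAt (D.x₁ c) (ψ₂ φ.2 * φ.1 ^ Q) = lamu c ^ Q := by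
    rw [Core.valAt_mul _ (C.hF₁.deg_eq_one _) m21 ((D.x₁ c).toValuationSubring.pow_mem r1 Q),
      v21, Core.valAt_pow _ (C.hF₁.deg_eq_one _) r1, (hφval c).1, (hφval c).2]
    simp
  have g2 : Core.valAt (D.x₂ c) (ψ₁ φ.1 * φ.2 ^ Q) = lamu c ^ Q := by
    rw [Core.valAt_mul _ (C.hF₂.deg_eq_one _) m12 ((D.x₂ c).toValuationSubring.pow_mem r2 Q),
      v12, Core.valAt_pow _ (C.hF₂.deg_eq_one _) r2, (hφval c).1, (hφval c).2]
    simp
  rw [f1, f2, g1, g2] at h3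
  have hne : lamu c ^ Q ≠ 0 := pow_ne_zero Q (hlamu0 c)
  have h4 : lamz c * lamu c ^ Q = 1 * lamu c ^ Q := by rw [one_mul]; exact h3.symm
  exact mul_right_cancel₀ hne h4

/-- **(T2)** for a Kummer unit `u` and an anti-Frobenial `τ` of exponent `Q`, the function
`τ u · u ^ Q` is a constant times an `n`-th power. -/
theorem exists_eq_const_mul_pow_of_isAntiFrobenial (C : NodalCtx D g g₁ g₂)
    (hcech : CechCoreStatement D g₁ g₂) (hτ : IsAntiFrobenial D τ Q ψ₁ ψ₂) {n : ℕ}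
    (hn : (n : k) ≠ 0) {u : F} (hu : IsKummerUnit D n u) :
    ∃ (h : F) (c : L), h ≠ 0 ∧ c ≠ 0 ∧ τ • u * u ^ Q = algebraMap L F c * h ^ n := by
  have hn0 : n ≠ 0 := by
    rintro rfl
    exact hn (by simp)
  obtain ⟨hKz, β, hβ, h₁, h₂⟩ := hτ.isKummerUnit_mul hu
  obtain ⟨a, ha0, hKa, e₁, e₂⟩ := exists_normalise hKz hβ h₁ h₂
  obtain ⟨Hsub, Heq⟩ := twist_eq_one_of_isAntiFrobenial C hτ (Nat.pos_of_ne_zero hn0) hu hKa
  obtain ⟨h, c, hh0, hc0, hz⟩ := hcech n hn _ hKa e₁ e₂ Hsub Heq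
  refine ⟨h, (a : L)⁻¹ * c, hh0, mul_ne_zero (inv_ne_zero ha0) hc0, ?_⟩
  have haF : algebraMap L F (a : L) ≠ 0 := (map_ne_zero _).2 ha0
  rw [map_mul, map_inv₀, mul_assoc, ← hz, ← mul_assoc, inv_mul_cancel₀ haF, one_mul]

/-- **`τ = - Q` on the toric part, divisor form**: if `n • D₀ = div u` for a Kummer unit `u`, then
`τ • D₀ + Q • D₀` is principal. -/
theorem antiFrobenial_divisor (C : NodalCtx D g g₁ g₂) (hcech : CechCoreStatement D g₁ g₂)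
    (hτ : IsAntiFrobenial D τ Q ψ₁ ψ₂) {n : ℕ} (hn : (n : k) ≠ 0) {u : F}
    (hu : IsKummerUnit D n u) {D₀ : Divisor L F}
    (hD₀ : ∀ P : Place L F, P.ord u = (n : ℤ) * D₀ P) :
    τ • D₀ + Q • D₀ ∈ Divisor.principal (K := L) (F := F) := by
  have hn0 : n ≠ 0 := by
    rintro rfl
    exact hn (by simp)
  have hnZ : (n : ℤ) ≠ 0 := by exact_mod_cast hn0
  obtain ⟨h, c, hh0, hc0, hz⟩ := exists_eq_const_mul_pow_of_isAntiFrobenial C hcech hτ hn hu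
  have hτu0 : τ • u ≠ 0 := by
    rw [SemilinearAut.smul_def]
    exact (map_ne_zero _).2 hu.ne_zero
  refine ⟨h, hh0, fun P => ?_⟩
  have h1 : P.ord (τ • u * u ^ Q) = (n : ℤ) * P.ord h := by
    rw [hz, P.ord_mul ((map_ne_zero _).2 hc0) (pow_ne_zero n hh0), S18lib.Cech.ord_const,
      S18lib.Cech.ord_pow, zero_add]
  rw [P.ord_mul hτu0 (pow_ne_zero Q hu.ne_zero), NodalDatum.IsInertial.ord_smul_eq,
    S18lib.Cech.ord_pow, hD₀, hD₀] at h1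
  rw [Finsupp.add_apply, SemilinearAut.divisor_smul_apply, Finsupp.smul_apply, nsmul_eq_mul]
  have h2 : (n : ℤ) * (D₀ (τ⁻¹ • P) + (Q : ℤ) * D₀ P) = (n : ℤ) * P.ord h := by
    rw [← h1]; ring
  exact mul_left_cancel₀ hnZ h2

end Main

end Fermat.Agent.S43lib.B0
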