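/-
S43lib / B0 / Toric / Part  (helper6)  — Project H, block B0 (Mazur's principle), brick (T1).

THE TORIC PART of the `n`-torsion of `Pic⁰(F)` for a nodal datum `D`:

  `toricPart D n` = the classes `[D₀]` with `n • D₀ = div u` for a KUMMER UNIT `u` of `D`
  (a unit of the sup-norm ball reducing to nonzero CONSTANTS on both components; these are the line
  bundles whose reduction is trivial on both components, i.e. `Hom(X, μ_n)`, `X` the character
  group of the toric part of the special fibre of the Néron model).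

* `toricPart D n : AddSubgroup (Pic0 L F)`, `toricPart_le_torsion`;
* `smul_sub_mem_toricPart` : `σ • x - x ∈ toricPart D n` for inertial `σ`, `x ∈ Pic⁰[n]`;
* `smul_eq_of_mem_toricPart` : inertial automorphisms FIX the toric part pointwise;
* **`antiFrobenial_smul_add`** : `τ • x + Q • x = 0` for `x ∈ toricPart D n`, `τ` anti-Frobenial of
  exponent `Q` (`Toric/Swap.lean`):   Frobenius ∘ Atkin–Lehner `= - Q` on the toric part;
* `frobenial_smul` : `s • x = Q • x` for `x ∈ toricPart D n`, `s` Frobenial of exponent `Q`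
  (helper8's `LSc/Core/Frobenial`).
-/
import Fermat.Agent.S43lib.B0.Toric.Swap

set_option autoImplicit false

noncomputable section

namespace Fermat.Agent.S43lib.B0

open AlgebraicCurve Module Fermat.Agent.LSb Fermat.Agent.LSc

variable {L : Type*} [Field L] {A : ValuationSubring L}
variable {F : Type*} [Field F] [Algebra L F]
variable {F₁ F₂ : Type*} [Field F₁] [Field F₂]
variable [Algebra (IsLocalRing.ResidueField A) F₁] [Algebra (IsLocalRing.ResidueField A) F₂]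

local notation "k" => IsLocalRing.ResidueField A

/-- **the toric part** of `Pic⁰(F)[n]` -/
def toricPart (D : NodalDatum A F F₁ F₂) (n : ℕ) : AddSubgroup (Pic0 L F) where
  carrier := {x | ∃ (D₀ : Divisor.degZero (K := L) (F := F)) (u : F), Pic0.mk D₀ = x ∧
    IsKummerUnit D n u ∧ ∀ P : Place L F, P.ord u = (n : ℤ) * (D₀ : Divisor L F) P}
  zero_mem' := ⟨0, 1, rfl, IsKummerUnit.one D n, fun P => by simp⟩
  add_mem' := by
    rintro x y ⟨D₁, u₁, rfl, hu₁, h₁⟩ ⟨D₂, u₂, rfl, hu₂, h₂⟩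
    refine ⟨D₁ + D₂, u₁ * u₂, rfl, kummerUnit_mul hu₁ hu₂, fun P => ?_⟩
    rw [P.ord_mul hu₁.ne_zero hu₂.ne_zero, h₁, h₂, AddSubgroup.coe_add, Finsupp.add_apply]
    ring
  neg_mem' := by
    rintro x ⟨D₁, u₁, rfl, hu₁, h₁⟩
    refine ⟨-D₁, u₁⁻¹, rfl, hu₁.inv, fun P => ?_⟩
    rw [P.ord_inv, h₁, AddSubgroup.coe_neg, Finsupp.neg_apply]
    ring

theorem mem_toricPart {D : NodalDatum A F F₁ F₂} {n : ℕ} {x : Pic0 L F} :
    x ∈ toricPart D n ↔ ∃ (D₀ : Divisor.degZero (K := L) (F := F)) (u : F), Pic0.mk D₀ = x ∧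
      IsKummerUnit D n u ∧ ∀ P : Place L F, P.ord u = (n : ℤ) * (D₀ : Divisor L F) P :=
  Iff.rfl

/-- a class is zero iff its divisor is principal -/
theorem pic0_mk_eq_zero_iff (E : Divisor.degZero (K := L) (F := F)) :
    Pic0.mk E = 0 ↔ (E : Divisor L F) ∈ Divisor.principal (K := L) (F := F) := by
  rw [Pic0.mk, QuotientAddGroup.eq_zero_iff, AddSubgroup.mem_addSubgroupOf]

/-- the toric part is killed by `n` -/
theorem zsmul_eq_zero_of_mem_toricPart {D : NodalDatum A F F₁ F₂} {n : ℕ} {x : Pic0 L F}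
    (hx : x ∈ toricPart D n) : (n : ℤ) • x = 0 := by
  obtain ⟨D₀, u, rfl, hu, h⟩ := hx
  have h1 : (n : ℤ) • Pic0.mk D₀ = Pic0.mk ((n : ℤ) • D₀) := rfl
  rw [h1, pic0_mk_eq_zero_iff]
  refine ⟨u, hu.ne_zero, fun P => ?_⟩
  rw [h P, AddSubgroup.coe_zsmul, Finsupp.smul_apply, smul_eq_mul]

theorem toricPart_le_torsion (D : NodalDatum A F F₁ F₂) (n : ℕ) :
    toricPart D n ≤ Pic0.torsion L F n := fun _ hx =>
  Pic0.mem_torsion.2 (zsmul_eq_zero_of_mem_toricPart hx)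

/-- `(σ - 1) x` lies in the toric part for an inertial `σ` and `x ∈ Pic⁰[n]` -/
theorem smul_sub_mem_toricPart {D : NodalDatum A F F₁ F₂} {σ : SemilinearAut L F}
    (hσ : D.IsInertial σ) {n : ℕ} {x : Pic0 L F} (hx : (n : ℤ) • x = 0) :
    σ • x - x ∈ toricPart D n := by
  obtain ⟨D₀, rfl⟩ := Pic0.mk_surjective x
  have h1 : Pic0.mk ((n : ℤ) • D₀) = 0 := hx
  rw [pic0_mk_eq_zero_iff] at h1
  obtain ⟨f, hf0, hfdiv⟩ := h1
  have hfdiv' : ∀ P : Place L F, P.ord f = (n : ℤ) * (D₀ : Divisor L F) P := by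
    intro P
    rw [← hfdiv P, AddSubgroup.coe_zsmul, Finsupp.smul_apply, smul_eq_mul]
  have hσf0 : σ • f ≠ 0 := by
    rw [SemilinearAut.smul_def]
    exact (map_ne_zero _).2 hf0
  set u : F := σ • f * f⁻¹ with hu
  have hu0 : u ≠ 0 := mul_ne_zero hσf0 (inv_ne_zero hf0)
  set E : Divisor.degZero (K := L) (F := F) := SemilinearAut.degZeroSMulHom σ D₀ - D₀ with hE
  have hudiv : ∀ P : Place L F, P.ord u = (n : ℤ) * (E : Divisor L F) P := by
    intro P
    rw [hu, P.ord_mul hσf0 (inv_ne_zero hf0), P.ord_inv, NodalDatum.IsInertial.ord_smul_eq,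
      hfdiv', hfdiv', hE, AddSubgroup.coe_sub, SemilinearAut.coe_degZeroSMulHom,
      Finsupp.sub_apply, SemilinearAut.divisor_smul_apply]
    ring
  obtain ⟨hb₁, hb₂⟩ := kummerStatement D σ hσ f hf0
  refine ⟨E, u, ?_, ⟨hu0, fun P => ⟨(E : Divisor L F) P, hudiv P⟩, hb₁, hb₂⟩, hudiv⟩
  rw [SemilinearAut.pic0_smul_mk]
  rfl

section Ctx

variable {D : NodalDatum A F F₁ F₂} {g g₁ g₂ : ℕ}

/-- **inertial automorphisms fix the toric part pointwise** -/
theorem smul_eq_of_mem_toricPart (C : NodalCtx D g g₁ g₂) (hcech : CechCoreStatement D g₁ g₂)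
    {σ : SemilinearAut L F} (hσ : D.IsInertial σ) {n : ℕ} (hn : (n : k) ≠ 0) {x : Pic0 L F}
    (hx : x ∈ toricPart D n) : σ • x = x := by
  have hn0 : n ≠ 0 := by
    rintro rfl
    exact hn (by simp)
  have hnZ : (n : ℤ) ≠ 0 := by exact_mod_cast hn0
  obtain ⟨D₀, u, rfl, hu, hD₀⟩ := hx
  obtain ⟨hKz, hz₁, hz₂⟩ := hσ.isKummerUnit_div hu
  obtain ⟨Hsub, Heq⟩ := C.twist_eq_one hσ (Nat.pos_of_ne_zero hn0) hu
  obtain ⟨h, c, hh0, hc0, hz⟩ := hcech n hn _ hKz hz₁ hz₂ Hsub Heq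
  have hσu0 : σ • u ≠ 0 := by
    rw [SemilinearAut.smul_def]
    exact (map_ne_zero _).2 hu.ne_zero
  rw [SemilinearAut.pic0_smul_mk, ← sub_eq_zero]
  have e : Pic0.mk (SemilinearAut.degZeroSMulHom σ D₀) - Pic0.mk D₀ =
      Pic0.mk (SemilinearAut.degZeroSMulHom σ D₀ - D₀) := rfl
  rw [e, pic0_mk_eq_zero_iff]
  refine ⟨h, hh0, fun P => ?_⟩
  have h1 : P.ord (σ • u * u⁻¹) = (n : ℤ) * P.ord h := by
    rw [hz, P.ord_mul ((map_ne_zero _).2 hc0) (pow_ne_zero n hh0), S18lib.Cech.ord_const,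
      S18lib.Cech.ord_pow, zero_add]
  rw [P.ord_mul hσu0 (inv_ne_zero hu.ne_zero), P.ord_inv, NodalDatum.IsInertial.ord_smul_eq,
    hD₀, hD₀] at h1
  rw [AddSubgroup.coe_sub, SemilinearAut.coe_degZeroSMulHom, Finsupp.sub_apply,
    SemilinearAut.divisor_smul_apply]
  have h2 : (n : ℤ) * ((D₀ : Divisor L F) (σ⁻¹ • P) - (D₀ : Divisor L F) P) =
      (n : ℤ) * P.ord h := by
    rw [← h1]; ring
  exact mul_left_cancel₀ hnZ h2

/-- **Frobenius ∘ Atkin–Lehner `= - Q` on the toric part**: `τ • x + Q • x = 0` for an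
anti-Frobenial `τ` of exponent `Q`. -/
theorem antiFrobenial_smul_add (C : NodalCtx D g g₁ g₂) (hcech : CechCoreStatement D g₁ g₂)
    {τ : SemilinearAut L F} {Q : ℕ} {ψ₁ : F₁ →+* F₂} {ψ₂ : F₂ →+* F₁}
    (hτ : IsAntiFrobenial D τ Q ψ₁ ψ₂) {n : ℕ} (hn : (n : k) ≠ 0) {x : Pic0 L F}
    (hx : x ∈ toricPart D n) : τ • x + Q • x = 0 := by
  obtain ⟨D₀, u, rfl, hu, hD₀⟩ := hx
  have hmain := antiFrobenial_divisor C hcech hτ hn hu hD₀
  rw [SemilinearAut.pic0_smul_mk]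
  have e : Pic0.mk (SemilinearAut.degZeroSMulHom τ D₀) + Q • Pic0.mk D₀ =
      Pic0.mk (SemilinearAut.degZeroSMulHom τ D₀ + Q • D₀) := rfl
  rw [e, pic0_mk_eq_zero_iff]
  simpa using hmain

/-- the same in the form `τ • x = - (Q • x)` -/
theorem antiFrobenial_smul (C : NodalCtx D g g₁ g₂) (hcech : CechCoreStatement D g₁ g₂)
    {τ : SemilinearAut L F} {Q : ℕ} {ψ₁ : F₁ →+* F₂} {ψ₂ : F₂ →+* F₁}
    (hτ : IsAntiFrobenial D τ Q ψ₁ ψ₂) {n : ℕ} (hn : (n : k) ≠ 0) {x : Pic0 L F}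
    (hx : x ∈ toricPart D n) : τ • x = -(Q • x) :=
  eq_neg_of_add_eq_zero_left (antiFrobenial_smul_add C hcech hτ hn hx)

/-- **helper8's consumable form**: if `w * φ` is anti-Frobenial of exponent `Q` (`φ` a Frobenius lift,
`w` the Atkin–Lehner swap, inducing the same permutation of the nodes), then `φ = - Q · w⁻¹` on the
toric part. -/
theorem smul_eq_neg_of_mul_antiFrobenial (C : NodalCtx D g g₁ g₂)
    (hcech : CechCoreStatement D g₁ g₂) {w φ : SemilinearAut L F} {Q : ℕ} {ψ₁ : F₁ →+* F₂}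
    {ψ₂ : F₂ →+* F₁} (hτ : IsAntiFrobenial D (w * φ) Q ψ₁ ψ₂) {n : ℕ} (hn : (n : k) ≠ 0)
    {x : Pic0 L F} (hx : x ∈ toricPart D n) : φ • x = -(Q • (w⁻¹ • x)) := by
  have h := antiFrobenial_smul C hcech hτ hn hx
  rw [mul_smul] at h
  have h2 := congrArg (fun y => w⁻¹ • y) h
  simp only [inv_smul_smul] at h2
  rw [h2, smul_neg]
  congr 1
  exact map_nsmul (DistribSMul.toAddMonoidHom (Pic0 L F) w⁻¹) Q x


/-- **a Frobenial automorphism of exponent `Q` acts as `Q` on the toric part** (helper8's (C3)). -/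
theorem frobenial_smul (C : NodalCtx D g g₁ g₂) (hcech : CechCoreStatement D g₁ g₂)
    {s : SemilinearAut L F} {Q : ℕ} {t₁ : SemilinearAut k F₁} {t₂ : SemilinearAut k F₂}
    (hs : IsFrobenial D s Q t₁ t₂) {n : ℕ} (hn : (n : k) ≠ 0) {x : Pic0 L F}
    (hx : x ∈ toricPart D n) : s • x = Q • x := by
  have hn0 : n ≠ 0 := by
    rintro rfl
    exact hn (by simp)
  have hnZ : (n : ℤ) ≠ 0 := by exact_mod_cast hn0
  obtain ⟨D₀, u, rfl, hu, hD₀⟩ := hx
  obtain ⟨h, c, hh0, hc0, hz⟩ := exists_eq_const_mul_pow_of_isFrobenial C hcech hs hn hu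
  have hsu0 : s • u ≠ 0 := by
    rw [SemilinearAut.smul_def]
    exact (map_ne_zero _).2 hu.ne_zero
  rw [SemilinearAut.pic0_smul_mk, ← sub_eq_zero]
  have e : Pic0.mk (SemilinearAut.degZeroSMulHom s D₀) - Q • Pic0.mk D₀ =
      Pic0.mk (SemilinearAut.degZeroSMulHom s D₀ - Q • D₀) := rfl
  rw [e, pic0_mk_eq_zero_iff]
  refine ⟨h, hh0, fun P => ?_⟩
  have h1 : P.ord (s • u * (u ^ Q)⁻¹) = (n : ℤ) * P.ord h := by
    rw [hz, P.ord_mul ((map_ne_zero _).2 hc0) (pow_ne_zero n hh0), S18lib.Cech.ord_const,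
      S18lib.Cech.ord_pow, zero_add]
  rw [P.ord_mul hsu0 (inv_ne_zero (pow_ne_zero Q hu.ne_zero)), P.ord_inv,
    NodalDatum.IsInertial.ord_smul_eq, S18lib.Cech.ord_pow, hD₀, hD₀] at h1
  rw [AddSubgroup.coe_sub, SemilinearAut.coe_degZeroSMulHom, Finsupp.sub_apply,
    SemilinearAut.divisor_smul_apply, AddSubgroup.coe_nsmul, Finsupp.smul_apply, nsmul_eq_mul]
  have h2 : (n : ℤ) * ((D₀ : Divisor L F) (s⁻¹ • P) - (Q : ℤ) * (D₀ : Divisor L F) P) =
      (n : ℤ) * P.ord h := by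
    rw [← h1]; ring
  exact mul_left_cancel₀ hnZ h2

end Ctx

end Fermat.Agent.S43lib.B0
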