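/-
S43lib / B0 / Toric / AntiFrobMod  (helper6)  — Project H, block B0 (Mazur's principle), brick (M4).

THE MODULAR INSTANCE OF `IsAntiFrobenial`, AND FROBENIUS ON THE TORIC PART.

Level `M q`, `q ∤ M`, `A` a place of `ℚ̄` over `q`, `φ` a Frobenius element at `A`,
`w = w_q` the Atkin–Lehner involution (`S35lib.New.wqJ`), `τ` the coefficientwise `q`-Frobenius of
`FRes A M` (`LSc.Inst.tauQ`):

* **`modNod_isAntiFrobenial`** : `w * φ` is anti-Frobenial of exponent `q` for the modular nodal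
  datum `Kap.modNod hqM hA`, with `ψ₁ = ψ₂ = τ`;
* `wqJ_smul_wqJ_smul`           : `w` is an involution of `J₀(M q)`;
* `wqJ_smul_galois`             : `w` commutes with `G_ℚ` on `J₀(M q)`;
* **`frob_smul_eq_neg_of_mem_toricPart`** : `φ • x = - (q • (w • x))` for `x` in the toric part
  `toricPart (Kap.modNod hqM hA) n`, `n` prime to `q` (`q ≥ 5`).
-/
import Fermat.Agent.S43lib.B0.Toric.Part
import Fermat.Agent.LSc.Inst.FrobInst
import Fermat.Agent.LSb.Core.CechFinal
import Fermat.Agent.S35lib.New.WqHecke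
import Fermat.Agent.S44lib.Kap.ModInst

set_option autoImplicit false
set_option linter.unusedSectionVars false
set_option linter.style.haveILetI false

noncomputable section

namespace Fermat.Agent.S43lib.B0

open AlgebraicCurve ModularCurve Fermat.Agent.S18lib Fermat.Agent.S37lib Fermat.Agent.ProgramR
open Fermat.Agent.LSb Fermat.Agent.LSb.Unit Fermat.Agent.LSc Fermat.Agent.LSc.Inst
open Fermat.Agent.S44lib Fermat.Agent.S29lib.GH

local notation "Qb" => AlgebraicClosure ℚ
local notation "GQ" => (AlgebraicClosure ℚ ≃ₐ[ℚ] AlgebraicClosure ℚ)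

variable {M q : ℕ} [NeZero M] [NeZero q] [hq : Fact q.Prime]
variable {A : ValuationSubring (AlgebraicClosure ℚ)}

local notation "kA" => IsLocalRing.ResidueField A
local notation "DA" => ValuationSubring.decompositionSubgroup ℚ A

/-- the coefficientwise Frobenius as a ring endomorphism of `FRes A M` -/
def tauHom (M : ℕ) [NeZero M] (hA : A.LiesOverPrime q) : FRes A M →+* FRes A M :=
  ((SemilinearAut.toRingAut (tauQ M hA) : FRes A M ≃+* FRes A M) : FRes A M →+* FRes A M)

theorem tauHom_apply (hA : A.LiesOverPrime q) (z : FRes A M) :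
    tauHom M hA z = tauQ M hA • z := rfl

variable (hqM : ¬ q ∣ M) (hA : A.LiesOverPrime q)

/-- the support of the poles of `w_q j` lies in that of `j` -/
theorem polesOf_wq_jF_le :
    ∃ d : ℕ, ∀ P : Place Qb (FBar (M * q)),
      polesOf (K := Qb) (Val.wq M q hq.out hqM (Gin0.jF (M * q))) P ≤
        (d : ℤ) * polesOf (K := Qb) (Gin0.jF (M * q)) P := by
  classical
  set E := polesOf (K := Qb) (Val.wq M q hq.out hqM (Gin0.jF (M * q))) with hE
  have hreg : Val.wq M q hq.out hqM (Gin0.jF (M * q)) ∈ regAway Qb (Gin0.jF (M * q)) :=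
    wq_mem_regAway hqM (fun Q hQ => hQ)
  refine ⟨∑ P ∈ E.support, (E P).toNat, fun P => ?_⟩
  by_cases hP : Gin0.jF (M * q) ∈ P.toValuationSubring
  · -- `j` regular at `P`: so is `w_q j`
    have h1 : E P = 0 := by
      rw [hE, polesOf_apply]
      have := (FF.mem_iff_ord_nonneg P _).1 (hreg P hP)
      omega
    rw [h1]
    have h2 : 0 ≤ polesOf (K := Qb) (Gin0.jF (M * q)) P := by
      rw [polesOf_apply]; exact le_max_right _ _
    positivity
  · -- a pole of `j`
    have h2 : 1 ≤ polesOf (K := Qb) (Gin0.jF (M * q)) P := by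
      rw [polesOf_apply]
      have : ¬ 0 ≤ P.ord (Gin0.jF (M * q)) := fun h => hP ((FF.mem_iff_ord_nonneg P _).2 h)
      omega
    by_cases hPs : P ∈ E.support
    · have h3 : (E P).toNat ≤ ∑ P ∈ E.support, (E P).toNat :=
        Finset.single_le_sum (f := fun P => (E P).toNat) (fun _ _ => Nat.zero_le _) hPs
      have h4 : E P ≤ ((E P).toNat : ℤ) := Int.self_le_toNat _
      have h5 : ((E P).toNat : ℤ) ≤ ((∑ P ∈ E.support, (E P).toNat : ℕ) : ℤ) := by
        exact_mod_cast h3
      calc E P ≤ ((∑ P ∈ E.support, (E P).toNat : ℕ) : ℤ) := h4.trans h5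
        _ = ((∑ P ∈ E.support, (E P).toNat : ℕ) : ℤ) * 1 := (mul_one _).symm
        _ ≤ _ := mul_le_mul_of_nonneg_left h2 (by positivity)
    · rw [Finsupp.notMem_support_iff.1 hPs]
      have : 0 ≤ polesOf (K := Qb) (Gin0.jF (M * q)) P := by omega
      positivity

/-- **(M4)** for a Frobenius element `σ` at `A ∣ q`, the automorphism `w_q ∘ σ` of `FBar (M q)` is
ANTI-FROBENIAL of exponent `q` for the modular nodal datum, with `ψ₁ = ψ₂ =` the coefficientwise
Frobenius. -/
theorem modNod_isAntiFrobenial {σ : GQ} (hσ : A.IsFrobeniusAt σ q) :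
    IsAntiFrobenial (Kap.modNod hqM hA)
      (S35lib.New.wqJ M q hq.out hqM * galAutBar (M * q) σ) q (tauHom M hA) (tauHom M hA) := by
  letI := Kap.modHpdK hqM hA
  have h1 := Kap.modD1_isGaussOne hqM hA
  have hO1 : ∀ x ∈ (Kap.modD1 hqM hA).O, x ∈ V.gaussSubring (M * q) A :=
    fun _ hy => Val.gaussOne_O_le M q A hqM hA hy
  have h2 := Kap.modD2'_isGaussTwo hqM hA
  set g : DA := frobD hσ with hg
  have hres : C0.resAutD A M g = tauQ M hA := resAutD_frobD hA hσ
  have k1 := gaussOne_decomp h1 hO1 g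
  have hFk := Kap.modGk_spec hqM hA
  -- the action of `τ = w_q ∘ σ` on functions
  have hτ : ∀ y : FBar (M * q),
      (S35lib.New.wqJ M q hq.out hqM * galAutBar (M * q) σ) • y =
        Val.wq M q hq.out hqM (Kum.galHom (M * q) σ y) := fun y => by
    rw [mul_smul]; rfl
  have hcomm : ∀ y : FBar (M * q), Val.wq M q hq.out hqM (Kum.galHom (M * q) σ y) =
      Kum.galHom (M * q) σ (Val.wq M q hq.out hqM y) :=
    fun y => Val.wq_arithmeticRingAut M q hq.out hqM σ y
  have hww : ∀ y : FBar (M * q), wqR M q hqM (Val.wq M q hq.out hqM y) = y :=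
    fun y => Val.wq_wq M q hq.out hqM y
  have hV1 : (Kap.modNod hqM hA).V₁ = Kap.modD1 hqM hA := rfl
  have hV2 : (Kap.modNod hqM hA).V₂ = Kap.modD2' hqM hA := rfl
  refine
    { mem₁ := fun y hy => ?_
      mem₂ := fun y hy => ?_
      red₁ := fun y hy => ?_
      red₂ := fun y hy => ?_
      base₁ := fun c => ?_
      base₂ := fun c => ?_
      node₁ := fun c φ hφ => ?_
      node₂ := fun c φ hφ => ?_
      P₁_le := ?_ }
  · rw [hV1] at hy
    rw [hV2, hτ, h2.mem_iff, hww]
    exact (k1 y).1.2 hy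
  · rw [hV2, h2.mem_iff] at hy
    rw [hV1, hτ, hcomm]
    exact (k1 _).1.2 hy
  · rw [hV1] at hy
    rw [hV2, hV1, hτ, h2.redF, hww]
    have := (k1 y).2 hy
    rw [resHom_apply, hres] at this
    exact this
  · rw [hV2, h2.mem_iff] at hy
    rw [hV1, hV2, hτ, hcomm, h2.redF]
    have := (k1 _).2 hy
    rw [resHom_apply, hres] at this
    exact this
  · rw [tauHom_apply, SemilinearAut.smul_algebraMap, baseAut_tauQ]
  · rw [tauHom_apply, SemilinearAut.smul_algebraMap, baseAut_tauQ]
  · show Core.VanishAt (modX₂ (Kap.modD1 hqM hA) c) (tauQ M hA • φ)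
    rw [modX₂_eq_smul hqM hA h1 hFk c, vanishAt_smul_iff]
    exact hφ
  · show Core.VanishAt (modX₁ hA (Kap.modD1 hqM hA) c) (tauQ M hA • φ)
    rw [modX₁_eq_smul hA c, vanishAt_smul_iff]
    exact hφ
  · obtain ⟨d, hd⟩ := polesOf_wq_jF_le hqM
    refine ⟨d, fun P => ?_⟩
    have e : (S35lib.New.wqJ M q hq.out hqM * galAutBar (M * q) σ) • (Kap.modNod hqM hA).P₁ =
        polesOf (K := Qb) (Val.wq M q hq.out hqM (Gin0.jF (M * q))) := by
      show (S35lib.New.wqJ M q hq.out hqM * galAutBar (M * q) σ) •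
        polesOf (K := Qb) (Gin0.jF (M * q)) = _
      rw [B3.smul_polesOf, mul_smul, Kum.galois_smul_jF]
      rfl
    rw [e]
    exact hd P

/-! ### the Atkin–Lehner involution on `J₀(M q)` -/

/-- `w_q` is an involution, as a semilinear automorphism -/
theorem wqJ_inv : (S35lib.New.wqJ M q hq.out hqM)⁻¹ = S35lib.New.wqJ M q hq.out hqM := by
  unfold S35lib.New.wqJ
  rw [← map_inv]
  congr 1

theorem wqJ_mul_wqJ :
    S35lib.New.wqJ M q hq.out hqM * S35lib.New.wqJ M q hq.out hqM = 1 := by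
  have := mul_inv_cancel (S35lib.New.wqJ M q hq.out hqM)
  rwa [wqJ_inv] at this

/-- `w_q` commutes with the coefficientwise Galois action, as semilinear automorphisms -/
theorem wqJ_mul_galAutBar (σ : GQ) :
    S35lib.New.wqJ M q hq.out hqM * galAutBar (M * q) σ =
      galAutBar (M * q) σ * S35lib.New.wqJ M q hq.out hqM := by
  refine Subtype.ext (Prod.ext ?_ ?_)
  · refine RingEquiv.ext fun y => ?_
    exact Val.wq_arithmeticRingAut M q hq.out hqM σ y
  · show SemilinearAut.baseAut (S35lib.New.wqJ M q hq.out hqM * galAutBar (M * q) σ) =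
      SemilinearAut.baseAut (galAutBar (M * q) σ * S35lib.New.wqJ M q hq.out hqM)
    rw [SemilinearAut.baseAut_mul, SemilinearAut.baseAut_mul]
    unfold S35lib.New.wqJ
    rw [SemilinearAut.baseAut_ofAlgAut, one_mul, mul_one]

/-- **`w_q` on `J₀(M q)`** as an additive endomorphism -/
def wqJHom : JZero (M * q) →+ JZero (M * q) :=
  DistribSMul.toAddMonoidHom (JZero (M * q)) (S35lib.New.wqJ M q hq.out hqM)

theorem wqJHom_apply (x : JZero (M * q)) :
    wqJHom hqM x = S35lib.New.wqJ M q hq.out hqM • x := rfl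

/-- `w_q` is an involution of `J₀(M q)` -/
theorem wqJHom_wqJHom (x : JZero (M * q)) : wqJHom hqM (wqJHom hqM x) = x := by
  rw [wqJHom_apply, wqJHom_apply, ← mul_smul, wqJ_mul_wqJ, one_smul]

/-- `w_q` commutes with `G_ℚ` on `J₀(M q)` -/
theorem wqJHom_galois (σ : GQ) (x : JZero (M * q)) :
    wqJHom hqM (σ • x) = σ • wqJHom hqM x := by
  rw [wqJHom_apply, wqJHom_apply, galois_smul_eq, galois_smul_eq, ← mul_smul, ← mul_smul,
    wqJ_mul_galAutBar]

/-! ### Frobenius on the toric part -/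

/-- **(M4) = `frobK`**, from a nodal context of the modular datum (available at every good pair
`(M, q)`): a Frobenius element at `A ∣ q` acts on the toric part of `J₀(M q)[n]` (`q ∤ n`) as
`- q · w_q`. -/
theorem frob_smul_eq_neg_of_mem_toricPartC
    (C : NodalCtx (Kap.modNod hqM hA) (Kap.modG M q) (Kap.modGk hqM hA) (Kap.modGk hqM hA))
    {σ : GQ} (hσ : A.IsFrobeniusAt σ q)
    {n : ℕ} (hn : ¬ q ∣ n) {x : JZero (M * q)}
    (hx : x ∈ toricPart (Kap.modNod hqM hA) n) :
    σ • x = -((q : ℤ) • wqJHom hqM x) := by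
  letI := Kap.modHpdK hqM hA
  haveI : CharP kA q := V.charP_residueField A hA
  have hnk : ((n : ℕ) : kA) ≠ 0 := by
    rw [Ne, CharP.cast_eq_zero_iff kA q]
    exact hn
  have h := smul_eq_neg_of_mul_antiFrobenial C C.cechCoreStatement
    (modNod_isAntiFrobenial hqM hA hσ) hnk hx
  rw [wqJ_inv] at h
  rw [galois_smul_eq, h, natCast_zsmul]
  rfl

/-- **(M4) = `frobK`**, `q ≥ 5`. -/
theorem frob_smul_eq_neg_of_mem_toricPart (h5 : 5 ≤ q) {σ : GQ} (hσ : A.IsFrobeniusAt σ q)
    {n : ℕ} (hn : ¬ q ∣ n) {x : JZero (M * q)}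
    (hx : x ∈ toricPart (Kap.modNod hqM hA) n) :
    σ • x = -((q : ℤ) • wqJHom hqM x) :=
  frob_smul_eq_neg_of_mem_toricPartC hqM hA (Kap.modCtx hqM hA h5) hσ hn hx

end Fermat.Agent.S43lib.B0
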