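/-
S43lib / B0 / Toric / TameM  (helper6)  — Project H, block B0 (Mazur's principle), brick (T3).

**THE TAME `(M′)`: the component orders of an inertia-fixed torsion class are Eisenstein.**

`A` a place of `ℚ̄` over a prime `r`, `m` a prime (the torsion order; `m = r` is allowed but the
statement is meant for `m ≠ r`), `x ∈ J₀(N)[m]` FIXED BY THE INERTIA GROUP `I_A`.  Then `x` is the class of
an `I_A`-stable divisor (`S36lib.J.exists_stable_divisor`), the annulus constants `Z_c` are `I_A`-fixed,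
hence have valuations in `|r|^ℤ` (`S44lib.F.val_of_IA_fixed`: `ℚ̄^{I_A}` is unramified), and helper7's
slope-law arithmetic (`S44lib.M.mprime_split`, no break-one rigidity needed) gives

    `(e c) · cMapᵢ x c = (e c') · cMapᵢ x c'`   in `ZMod m`   (`i = 1, 2`, all nodes `c, c'`),

`|pi c| = |r| ^ (e c)`.

* `mprime_cMap_tame`       : for a modular annulus datum;
* `cMap_const_tame`        : uniform thickness: `cMapᵢ x` is constant along the nodes;
* `mprime_mod_tame`        : for the concrete annulus datum `S44lib.M.modAnn` (level `M q`, `q ≥ 5`);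
* **`kapOrd_const_tame`**  : at the elliptic-free levels `M q` (`q ≥ 5`, `q ∤ M`, `ν₂ M = ν₃ M = 0`), in the
                             `kapOrd` form of `S44lib.Lvl.MPrimeConstStmt`.
-/
import Fermat.Agent.S44lib.Lvl.MPrimeClosed

set_option autoImplicit false
set_option linter.unusedSectionVars false
set_option linter.style.haveILetI false

noncomputable section

namespace Fermat.Agent.S43lib.B0

open Fermat.Agent.S18lib AlgebraicCurve ModularCurve Fermat.Agent.LSb
open Fermat.Agent.S33lib Fermat.Agent.S19lib Fermat.Agent.S44lib Fermat.Agent.S44lib.M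
open Fermat.Agent.S33lib.N Fermat.Agent.S29lib.GH

local notation "Qb" => AlgebraicClosure ℚ
local notation "GQ" => (AlgebraicClosure ℚ ≃ₐ[ℚ] AlgebraicClosure ℚ)

section Abstract

variable {N : ℕ} [NeZero N] {A : ValuationSubring Qb}
variable {F₁ F₂ : Type*} [Field F₁] [Field F₂]
variable [Algebra (IsLocalRing.ResidueField A) F₁] [Algebra (IsLocalRing.ResidueField A) F₂]
variable [HasPrincipalDivisors Qb (FBar N)]
variable [HasPrincipalDivisors (IsLocalRing.ResidueField A) F₁]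
  [HasPrincipalDivisors (IsLocalRing.ResidueField A) F₂]

/-- **the tame `(M′)` in `cMap` form** for a modular annulus datum with thicknesses
`|pi c| = |r| ^ (e c)`: for an inertia-fixed `x ∈ J₀(N)[m]` the weighted node orders of the two
reduction Kummer classes are constant along the nodes. -/
theorem mprime_cMap_tame {m r : ℕ} (hm : m.Prime) (hr : r.Prime) (hA : A.LiesOverPrime r)
    (Dann : Ann.AnnDatum A (FBar N) F₁ F₂) {g g₁ g₂ : ℕ} (C : NodalCtx Dann.nod g g₁ g₂)
    (S₀ : NSym Dann.toNRedDatum ↥(IA A))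
    (ρ_eq : ∀ h : ↥(IA A), S₀.ρ h = arithmeticGalois (modularFunctionFieldFull N) (h : GQ))
    (hS : AnnSym Dann S₀) (hlaw : SlopeLaw Dann) (e : Fin Dann.nod.s → ℕ)
    (hpi : ∀ c, A.valuation (Dann.pi c) = A.valuation ((r : ℕ) : Qb) ^ (e c))
    {x : JZero N} (hx : x ∈ tors N (m : ℤ)) (hfix : ∀ σ ∈ IA A, σ • x = x)
    (c c' : Fin Dann.nod.s) :
    (e c : ZMod m) * Kap.cMap₁ Dann.toNRedDatum C m (Kap.torsOf hx) c
        = (e c' : ZMod m) * Kap.cMap₁ Dann.toNRedDatum C m (Kap.torsOf hx) c' ∧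
      (e c : ZMod m) * Kap.cMap₂ Dann.toNRedDatum C m (Kap.torsOf hx) c
        = (e c' : ZMod m) * Kap.cMap₂ Dann.toNRedDatum C m (Kap.torsOf hx) c' := by
  have hhat : ∀ (h : ↥(IA A)) (b : Qb), S₀.hat h b = (h : GQ) b := by
    intro h b
    show SemilinearAut.baseAut (S₀.ρ h) b = _
    rw [ρ_eq]
    rfl
  have hsmul : ∀ (h : ↥(IA A)) (y : JZero N), S₀.ρ h • y = (h : GQ) • y := by
    intro h y
    rw [ρ_eq]
    rfl
  have hpinf : ∀ h : ↥(IA A),
      S₀.ρ h • Fermat.Agent.S36lib.J.pinfBar N = Fermat.Agent.S36lib.J.pinfBar N := by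
    intro h
    rw [ρ_eq]
    exact Fermat.Agent.S36lib.J.galAutBar_smul_pinfBar N (h : GQ)
  have hr0 : ((r : ℕ) : Qb) ≠ 0 := by exact_mod_cast hr.ne_zero
  have hr1 : A.valuation ((r : ℕ) : Qb) < 1 := F.val_p_lt_one hA
  obtain ⟨D₀, hD₀, hst⟩ := Fermat.Agent.S36lib.J.exists_stable_divisor C.hF
    (Set.range fun h : ↥(IA A) => S₀.ρ h) (Fermat.Agent.S36lib.J.pinfBar N)
    (by rintro _ ⟨h, rfl⟩; exact hpinf h) x
    (by
      rintro _ ⟨h, rfl⟩
      show S₀.ρ h • x = x
      rw [hsmul]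
      exact hfix _ h.2)
  have hm1 : ¬ m ∣ 1 := fun h => hm.one_lt.ne' (Nat.dvd_one.1 h)
  refine mprime_split hm C hS hlaw hr0 hr1 (fun b hb0 hb => ?_) 1 hm1 e (fun c => ?_)
    (Kap.torsOf hx) D₀ hD₀ (fun h => hst _ ⟨h, rfl⟩) c c'
  · exact F.val_of_IA_fixed hr hA hb0 fun σ hσ => by
      rw [← hhat ⟨σ, hσ⟩]; exact hb ⟨σ, hσ⟩
  · rw [hpi c, one_mul, zpow_natCast]

/-- **the tame `(M′)` for uniform thickness `|pi c| = |r|`**: the node orders of the reduction
Kummer classes of an inertia-fixed `x ∈ J₀(N)[m]` are constant along the nodes, on both components -/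
theorem cMap_const_tame {m r : ℕ} (hm : m.Prime) (hr : r.Prime) (hA : A.LiesOverPrime r)
    (Dann : Ann.AnnDatum A (FBar N) F₁ F₂) {g g₁ g₂ : ℕ} (C : NodalCtx Dann.nod g g₁ g₂)
    (S₀ : NSym Dann.toNRedDatum ↥(IA A))
    (ρ_eq : ∀ h : ↥(IA A), S₀.ρ h = arithmeticGalois (modularFunctionFieldFull N) (h : GQ))
    (hS : AnnSym Dann S₀) (hlaw : SlopeLaw Dann)
    (hpi : ∀ c, A.valuation (Dann.pi c) = A.valuation ((r : ℕ) : Qb))
    {x : JZero N} (hx : x ∈ tors N (m : ℤ)) (hfix : ∀ σ ∈ IA A, σ • x = x)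
    (c c' : Fin Dann.nod.s) :
    Kap.cMap₁ Dann.toNRedDatum C m (Kap.torsOf hx) c
        = Kap.cMap₁ Dann.toNRedDatum C m (Kap.torsOf hx) c' ∧
      Kap.cMap₂ Dann.toNRedDatum C m (Kap.torsOf hx) c
        = Kap.cMap₂ Dann.toNRedDatum C m (Kap.torsOf hx) c' := by
  have h := mprime_cMap_tame hm hr hA Dann C S₀ ρ_eq hS hlaw (fun _ => 1)
    (fun c => by rw [pow_one]; exact hpi c) hx hfix c c'
  simpa using h

end Abstract

/-! ### the concrete package -/

section Mod

variable {M q : ℕ} [NeZero M] [NeZero q] [hq : Fact q.Prime] {A : ValuationSubring Qb}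
variable (hqM : ¬ q ∣ M) (hA : A.LiesOverPrime q) (h5 : 5 ≤ q)

variable {z : FBar (M * q)}
  (hz : Ann.UnifCoord (Kap.modNod hqM hA) (Kap.modNModInst hqM hA h5).D.r ((q : ℕ) : Qb) z)

/-- **the tame `(M′)` for the concrete nodal package, in `cMap` form**: for an inertia-fixed
`x ∈ J₀(M q)[m]` the residues of `Ψ x` are constant along the nodes, on both components -/
theorem mprime_mod_tame (hzfix : ∀ σ ∈ IA A, galAutBar (M * q) σ • z = z)
    (hann : ∀ σ ∈ IA A, ∀ P : Place Qb (FBar (M * q)),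
      (modAnn hqM hA h5 hz).ann (galAutBar (M * q) σ • P) = (modAnn hqM hA h5 hz).ann P)
    {m : ℕ} (hm : m.Prime)
    {x : JZero (M * q)} (hx : x ∈ tors (M * q) (m : ℤ)) (hfix : ∀ σ ∈ IA A, σ • x = x)
    (c c' : Fin (Kap.modNModInst hqM hA h5).D.nod.s) :
    Kap.cMap₁ (Kap.modNModInst hqM hA h5).D (Kap.modNModInst hqM hA h5).ctx m (Kap.torsOf hx) c
        = Kap.cMap₁ (Kap.modNModInst hqM hA h5).D (Kap.modNModInst hqM hA h5).ctx m
            (Kap.torsOf hx) c' ∧
      Kap.cMap₂ (Kap.modNModInst hqM hA h5).D (Kap.modNModInst hqM hA h5).ctx m (Kap.torsOf hx) c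
        = Kap.cMap₂ (Kap.modNModInst hqM hA h5).D (Kap.modNModInst hqM hA h5).ctx m
            (Kap.torsOf hx) c' := by
  letI := Kap.modHpdK hqM hA
  haveI := Kap.modInfinite (A := A)
  have hS : AnnSym (modAnn hqM hA h5 hz) (Kap.modNModInst hqM hA h5).S :=
    annSym_of_liftCtx (D := modAnn hqM hA h5 hz) (S := (Kap.modNModInst hqM hA h5).S)
      (Kap.modLiftCtx hqM hA h5)
      (fun g P => hann g.1 g.2 P) (fun g _ => hzfix g.1 g.2) (fun g _ => by
        show (Kap.modNModInst hqM hA h5).S.hat g ((q : ℕ) : Qb) = ((q : ℕ) : Qb)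
        rw [(Kap.modNModInst hqM hA h5).hat_apply]
        exact map_natCast _ _)
  exact cMap_const_tame hm hq.out hA (modAnn hqM hA h5 hz)
    (Kap.modNModInst hqM hA h5).ctx (Kap.modNModInst hqM hA h5).S (Kap.modNModInst hqM hA h5).ρ_eq
    hS (Ann.annOfNCtx_slopeLaw _ hz _ _) (fun _ => rfl) hx hfix c c'

end Mod

/-! ### the elliptic-free levels -/

section Const

open Fermat.Agent.LSb.Unit Fermat.Agent.LSb.Val Fermat.Agent.S44lib.Kap

variable {M q : ℕ} [NeZero M] [NeZero q] [hq : Fact q.Prime] {A : ValuationSubring Qb}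

/-- **the tame `(M′)` in constant form at the elliptic-free levels** `M q` (`q ≥ 5`, `q ∤ M`,
`ν₂ M = ν₃ M = 0`): for an inertia-fixed `x ∈ J₀(M q)[m]`, `m` prime, the node orders of the two
reduction Kummer classes of `x` are constant on each component. -/
theorem kapOrd_const_tame (hqM : ¬ q ∣ M) (hA : A.LiesOverPrime q) (h5 : 5 ≤ q)
    (hν2 : nuTwo M = 0) (hν3 : nuThree M = 0) {m : ℕ} (hm : m.Prime)
    {x : JZero (M * q)} (hx : x ∈ tors (M * q) (m : ℤ)) (hfix : ∀ σ ∈ IA A, σ • x = x) :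
    (∀ c c', kapOrd (gaussOne M q A hqM hA) m (modX₁ hA (gaussOne M q A hqM hA) c) x =
        kapOrd (gaussOne M q A hqM hA) m (modX₁ hA (gaussOne M q A hqM hA) c') x) ∧
      (∀ c c', kapOrd (modD2 hqM (gaussOne M q A hqM hA)) m
          (modX₂ (gaussOne M q A hqM hA) c) x =
        kapOrd (modD2 hqM (gaussOne M q A hqM hA)) m (modX₂ (gaussOne M q A hqM hA) c') x) := by
  letI := modHpdK hqM hA
  haveI := modInfinite (A := A)
  obtain ⟨z, hz, -, hzfix⟩ := H4.exists_unifCoord hqM hA h5 hν2 hν3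
    (Lvl.kronLiftStmt_holds M q A hqM hA)
  have hann : ∀ σ ∈ IA A, ∀ P : Place Qb (FBar (M * q)),
      (S44lib.M.modAnn hqM hA h5 hz).ann (galAutBar (M * q) σ • P) =
        (S44lib.M.modAnn hqM hA h5 hz).ann P :=
    fun σ hσ P => Ann.annOfNCtx_ann_smul (modCtx hqM hA h5) hz S44lib.M.exists_sqrt_Qb
      (modInertial hqM hA h5 σ hσ) P
  exact ⟨fun c c' => (mprime_mod_tame hqM hA h5 hz hzfix hann hm hx hfix c c').1,
    fun c c' => (mprime_mod_tame hqM hA h5 hz hzfix hann hm hx hfix c c').2⟩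

end Const

end Fermat.Agent.S43lib.B0
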