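/-
S43lib / B0 / Toric / Ker  (helper6)  — Project H, block B0 (Mazur's principle), brick (T1').

**THE KERNEL OF `Ψ` IS THE TORIC PART.**  For a nodal datum `D` over a rank one valuation ring `A`
of a field `L` with `n`-th roots, `O₁ ≠ O₂`:

* `kTrivCl_of_mem_toricPart` : a toric class has trivial reduction Kummer classes;
* `mem_toricPart_of_kTrivCl` : conversely a class with trivial reduction Kummer classes on both
  components is toric (helper8's bricks C1 + C2, `LSc/Core/BiUnit`);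
* `kTrivCl_iff_mem_toricPart`, and **`psi_eq_zero_iff_mem_toricPart`** :
      `Ψ x = 0 ↔ x ∈ toricPart D n`  for `n • x = 0`.
-/
import Fermat.Agent.S43lib.B0.Toric.Part
import Fermat.Agent.S44lib.Kap.Psi
import Fermat.Agent.LSc.Core.BiUnit

set_option autoImplicit false

noncomputable section

namespace Fermat.Agent.S43lib.B0

open AlgebraicCurve Module Fermat.Agent.LSb Fermat.Agent.LSc Fermat.Agent.S18lib
open Fermat.Agent.S44lib.Kap

variable {L : Type*} [Field L] {A : ValuationSubring L}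
variable {F : Type*} [Field F] [Algebra L F]
variable {F₁ F₂ : Type*} [Field F₁] [Field F₂]
variable [Algebra (IsLocalRing.ResidueField A) F₁] [Algebra (IsLocalRing.ResidueField A) F₂]

local notation "k" => IsLocalRing.ResidueField A

/-- a toric class has trivial reduction Kummer classes on both components -/
theorem kTrivCl_of_mem_toricPart {D : NodalDatum A F F₁ F₂} {n : ℕ} {x : Pic0 L F}
    (hx : x ∈ toricPart D n) : KTrivCl D n x := by
  obtain ⟨D₀, u, rfl, hu, hD₀⟩ := hx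
  obtain ⟨b₁, hb₁, h₁⟩ := hu.red₁
  obtain ⟨b₂, hb₂, h₂⟩ := hu.red₂
  refine ⟨D₀, u, rfl, hu.ne_zero, hD₀, ?_, ?_⟩
  · exact KTriv.of_redF (by rw [h₁]; exact (map_ne_zero _).2 hb₁) (by rw [h₁]; exact IsCPow.const b₁)
  · exact KTriv.of_redF (by rw [h₂]; exact (map_ne_zero _).2 hb₂) (by rw [h₂]; exact IsCPow.const b₂)

/-- a nonzero `IsCPow` element, `n ≠ 0`: nonzero constant times the `n`-th power of a nonzero
element -/
theorem exists_of_isCPow_ne_zero {Fk : Type*} [Field Fk] [Algebra k Fk] {n : ℕ} {φ : Fk}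
    (h : IsCPow A n φ) (hφ : φ ≠ 0) :
    ∃ (c : k) (w : Fk), c ≠ 0 ∧ w ≠ 0 ∧ φ = algebraMap k Fk c * w ^ n := by
  obtain ⟨c, w, rfl⟩ := h
  by_cases hw : w = 0
  · -- then `n = 0` (else `φ = 0`), so `φ = c = c * 1 ^ n`
    subst hw
    have hn : n = 0 := by
      by_contra hn
      rw [zero_pow hn, mul_zero] at hφ
      exact hφ rfl
    subst hn
    refine ⟨c, 1, ?_, one_ne_zero, by rw [pow_zero, pow_zero]⟩
    rintro rfl
    rw [map_zero, zero_mul] at hφ
    exact hφ rfl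
  · refine ⟨c, w, ?_, hw, rfl⟩
    rintro rfl
    rw [map_zero, zero_mul] at hφ
    exact hφ rfl

/-- **a class with trivial reduction Kummer classes on both components is toric** -/
theorem mem_toricPart_of_kTrivCl [HasPrincipalDivisors L F] {D : NodalDatum A F F₁ F₂}
    (hA : Frame.RankOneDvd A) (hne : D.V₁.O ≠ D.V₂.O) {n : ℕ} (hn : 0 < n)
    (hroot : ∀ c : L, ∃ d : L, d ^ n = c) {x : Pic0 L F} (hx : KTrivCl D n x) :
    x ∈ toricPart D n := by
  obtain ⟨D₀, z, rfl, hz0, hz, hk₁, hk₂⟩ := hx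
  -- C1: `g = c hⁿ z` is a bi-unit
  obtain ⟨c, h, hc0, hh0, hg⟩ := exists_biUnit (D := D) hA hne hn hroot hz0
  set g : F := algebraMap L F c * h ^ n * z with hgdef
  have hcF : algebraMap L F c ≠ 0 := (map_ne_zero _).2 hc0
  have hg0 : g ≠ 0 := hg.ne_zero
  have hordg : ∀ P : Place L F, P.ord g = (n : ℤ) * (P.ord h + (D₀ : Divisor L F) P) := by
    intro P
    rw [hgdef, P.ord_mul (mul_ne_zero hcF (pow_ne_zero n hh0)) hz0,
      P.ord_mul hcF (pow_ne_zero n hh0), S18lib.Cech.ord_const, S18lib.Cech.ord_pow, hz]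
    ring
  -- the reductions of `g` are constants times `n`-th powers
  have hkg₁ : KTriv D.V₁ n g := ((KTriv.const hc0 n).mul (KTriv.pow_self hh0 n)).mul hk₁
  have hkg₂ : KTriv D.V₂ n g := ((KTriv.const hc0 n).mul (KTriv.pow_self hh0 n)).mul hk₂
  have hp₁ : IsCPow A n (D.V₁.redF g) := by
    have := hkg₁.isCPow_redF (d := 1) (by rw [map_one, one_mul]; exact hg.mem₁)
    rwa [map_one, one_mul] at this
  have hp₂ : IsCPow A n (D.V₂.redF g) := by
    have := hkg₂.isCPow_redF (d := 1) (by rw [map_one, one_mul]; exact hg.mem₂)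
    rwa [map_one, one_mul] at this
  -- C2: `u = g / h₀ⁿ` is a Kummer unit
  obtain ⟨h₀, hb, hu⟩ := exists_kummerUnit_of_red (D := D) hA hne hg0
    (fun P => ⟨_, hordg P⟩) (exists_of_isCPow_ne_zero hp₁ hg.1) (exists_of_isCPow_ne_zero hp₂ hg.2)
  have hh₀0 : h₀ ≠ 0 := hb.ne_zero
  -- the divisor of `h / h₀`
  have hq0 : h * h₀⁻¹ ≠ 0 := mul_ne_zero hh0 (inv_ne_zero hh₀0)
  obtain ⟨E, hE, hdeg⟩ := HasPrincipalDivisors.exists_divisor (K := L) (h * h₀⁻¹) hq0
  set E₀ : Divisor.degZero (K := L) (F := F) := ⟨E, Divisor.mem_degZero.2 hdeg⟩ with hE₀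
  have hE0 : Pic0.mk E₀ = 0 := by
    rw [pic0_mk_eq_zero_iff]
    exact ⟨h * h₀⁻¹, hq0, hE⟩
  refine ⟨D₀ + E₀, g * (h₀ ^ n)⁻¹, ?_, hu, fun P => ?_⟩
  · rw [Pic0.mk_add, hE0, add_zero]
  · rw [P.ord_mul hg0 (inv_ne_zero (pow_ne_zero n hh₀0)), P.ord_inv, S18lib.Cech.ord_pow, hordg,
      AddSubgroup.coe_add, Finsupp.add_apply]
    have : (E₀ : Divisor L F) P = P.ord h - P.ord h₀ := by
      show E P = _
      rw [hE P, P.ord_mul hh0 (inv_ne_zero hh₀0), P.ord_inv]
      ring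
    rw [this]
    ring

/-- **`ker Ψ` = the toric part**, in terms of `KTrivCl` -/
theorem kTrivCl_iff_mem_toricPart [HasPrincipalDivisors L F] {D : NodalDatum A F F₁ F₂}
    (hA : Frame.RankOneDvd A) (hne : D.V₁.O ≠ D.V₂.O) {n : ℕ} (hn : 0 < n)
    (hroot : ∀ c : L, ∃ d : L, d ^ n = c) (x : Pic0 L F) :
    KTrivCl D n x ↔ x ∈ toricPart D n :=
  ⟨mem_toricPart_of_kTrivCl hA hne hn hroot, kTrivCl_of_mem_toricPart⟩

/-- **`Ψ x = 0 ↔ x` is toric**, for `n • x = 0` -/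
theorem psi_eq_zero_iff_mem_toricPart {D : NodalDatum A F F₁ F₂} {g g₁ g₂ : ℕ}
    (C : NodalCtx D g g₁ g₂) (hne : D.V₁.O ≠ D.V₂.O) {n : ℕ} (hn : 0 < n)
    (hroot : ∀ c : L, ∃ d : L, d ^ n = c) {x : Pic0 L F} (hx : (n : ℤ) • x = 0) :
    psi D n x = 0 ↔ x ∈ toricPart D n := by
  have := C.hF.hasPrincipalDivisors
  rw [psi_eq_zero_iff C.hF hx]
  exact kTrivCl_iff_mem_toricPart C.rankOne hne hn hroot x

end Fermat.Agent.S43lib.B0
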