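/-
S43lib / B0 / Toric / TameEis  (helper6)  — Project H, block B0 (Mazur's principle), brick (T3).

**THE TAME `(M′)` AT EVERY LEVEL `M q`, `q ≥ 5`: `res (Ψ x) ∈ Eis` for inertia-fixed `x ∈ J₀(M q)[m]`.**

* `eis_of_const_gen` : helper9's descent `S44lib.Lvl.eis_of_const` with an arbitrary prime torsion order
  `m ∤ 12` (the residue characteristic `q` plays no role in the descent);
* `kapOrd_eis_tame`  : for an inertia-fixed `x ∈ J₀(M q)[m]` (`A ∣ q`, `q ≥ 5`, `q ∤ M`, `m` prime, `m ∤ 12`)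
  the node orders of the two reduction Kummer classes of `x` are multiples of the Eisenstein vectors
  (pull `x` back to the elliptic-free level `(36 M) q`, apply `kapOrd_const_tame` there, descend);
* **`resMap_psi_mem_eisSub_tame`** : `resMap (Ψ x) ∈ eisSub` (helper2's Eisenstein subgroup, on which
  `T_ℓ = ℓ + 1`: `S44lib.Q4.nodeHomPair_eq_smul_of_mem_eisSub`).
-/
import Fermat.Agent.S43lib.B0.Toric.TameM

set_option autoImplicit false
set_option linter.unusedSectionVars false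
set_option linter.style.haveILetI false

noncomputable section

namespace Fermat.Agent.S43lib.B0

open AlgebraicCurve ModularCurve Fermat.Agent.LSb Fermat.Agent.S18lib Fermat.Agent.S44lib.Kap
open Fermat.Agent.LSb.Unit Fermat.Agent.LSb.Val Fermat.Agent.S19lib Fermat.Agent.S44lib.Q4
open Fermat.Agent.S37lib.HeckeInst Fermat.Agent.S44lib Fermat.Agent.S44lib.Lvl

local notation "Qb" => AlgebraicClosure ℚ
local notation "GQ" => (AlgebraicClosure ℚ ≃ₐ[ℚ] AlgebraicClosure ℚ)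

variable {M r q : ℕ} [NeZero M] [NeZero r] [NeZero q] [hq : Fact q.Prime]
variable {A : ValuationSubring Qb}

local notation "kA" => IsLocalRing.ResidueField A

/-- **the descent of `(M′)`** from the elliptic-free level `(M r) q` to the level `M q`, for an
arbitrary prime torsion order `m ∤ 12` -/
theorem eis_of_const_gen (hqM : ¬ q ∣ M) (hqMr : ¬ q ∣ M * r) (hA : A.LiesOverPrime q)
    (h5 : 5 ≤ q) (hν2 : nuTwo (M * r) = 0) (hν3 : nuThree (M * r) = 0)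
    {m : ℕ} [Fact m.Prime] (h12 : ¬ m ∣ 12)
    {g g' gk gk' : ℕ} (hF : IsCurveOfGenus Qb (FBar (M * q)) g)
    (hF' : IsCurveOfGenus Qb (FBar (M * r * q)) g')
    (hFk : IsCurveOfGenus kA (FRes A M) gk) (hFk' : IsCurveOfGenus kA (FRes A (M * r)) gk')
    {y : JZero (M * q)} (hy : (m : ℤ) • y = 0) (t₁ t₂ : ZMod m)
    (hc₁ : ∀ c', kapOrd (gaussOne (M * r) q A hqMr hA) m
      (modX₁ hA (gaussOne (M * r) q A hqMr hA) c') (pullUp M r q y) = t₁)
    (hc₂ : ∀ c', kapOrd (modD2 hqMr (gaussOne (M * r) q A hqMr hA)) m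
      (modX₂ (gaussOne (M * r) q A hqMr hA) c') (pullUp M r q y) = t₂) :
    (∀ c, kapOrd (gaussOne M q A hqM hA) m (modX₁ hA (gaussOne M q A hqM hA) c) y =
      (t₁ * ((12 : ℕ) : ZMod m)⁻¹) *
        (((modX₁ hA (gaussOne M q A hqM hA) c).ord (H₂ (gaussOne M q A hqM hA)) : ℤ) : ZMod m)) ∧
    (∀ c, kapOrd (modD2 hqM (gaussOne M q A hqM hA)) m (modX₂ (gaussOne M q A hqM hA) c) y =
      (t₂ * ((12 : ℕ) : ZMod m)⁻¹) *
        (((modX₂ (gaussOne M q A hqM hA) c).ord (H₂ (gaussOne M q A hqM hA)) : ℤ) : ZMod m)) := by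
  haveI := hasPrincipalDivisors_FB (M * r * q)
  haveI := hasPrincipalDivisors_FB (M * q)
  haveI : HasPrincipalDivisors kA (FRes A M) := hFk.hasPrincipalDivisors
  haveI : HasPrincipalDivisors kA (FRes A (M * r)) := hFk'.hasPrincipalDivisors
  have h1 := isGaussOne_gaussOne M q A hqM hA
  have h1' := isGaussOne_gaussOne (M * r) q A hqMr hA
  have hint := isIntegral_inclK (M := M) (r := r) hqMr hA
  constructor
  · refine descent_kapCl (V.inclK A (dvdK M r)) hint (V.inclL (dvdL M r q))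
      (LSc.Xfer.xferInputs_inclL (dvdL M r q)).int (LSc.Xfer.xferInputs_inclL (dvdL M r q)).fi
      hF hF' (gaussCompat_gaussOne hqM hqMr hA) h12 _ _
      (fun c => exists_modX₁_above hqMr hA h1 h1' hFk hFk' c) (fun c' => ?_) hy t₁ hc₁
    rw [inclK_H₂ h1 h1']
    exact (S36lib.Count.ord_H₂_modX_five_le h5 hqMr hA hν2 hν3 h1' c').1
  · refine descent_kapCl (V.inclK A (dvdK M r)) hint (V.inclL (dvdL M r q))
      (LSc.Xfer.xferInputs_inclL (dvdL M r q)).int (LSc.Xfer.xferInputs_inclL (dvdL M r q)).fi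
      hF hF' (gaussCompat_modD2 hqM hqMr hA) h12 _ _
      (fun c => exists_modX₂_above hqMr hA h1 h1' hFk hFk' c) (fun c' => ?_) hy t₂ hc₂
    rw [inclK_H₂ h1 h1']
    exact (S36lib.Count.ord_H₂_modX_five_le h5 hqMr hA hν2 hν3 h1' c').2

/-- the pull-back preserves the `m`-torsion -/
theorem mem_tors_pullUp_gen (r : ℕ) [NeZero r] {m : ℕ} {x : JZero (M * q)}
    (hx : x ∈ tors (M * q) (m : ℤ)) : pullUp M r q x ∈ tors (M * r * q) (m : ℤ) := by
  have h := smul_eq_zero_of_mem_tors hx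
  show pullUp M r q x ∈ Submodule.torsionBy ℤ (JZero (M * r * q)) (m : ℤ)
  rw [Submodule.mem_torsionBy_iff, ← map_zsmul, h, map_zero]

/-- **the tame `(M′)` at the level `M q`, `kapOrd` form**, via an elliptic-free level `(M r) q` -/
theorem kapOrd_eis_tame_aux (r : ℕ) [NeZero r] (hqM : ¬ q ∣ M) (hqMr : ¬ q ∣ M * r)
    (hA : A.LiesOverPrime q) (h5 : 5 ≤ q) (hν2 : nuTwo (M * r) = 0) (hν3 : nuThree (M * r) = 0)
    {m : ℕ} [hm : Fact m.Prime] (h12 : ¬ m ∣ 12)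
    {x : JZero (M * q)} (hx : x ∈ tors (M * q) (m : ℤ)) (hfix : ∀ σ ∈ IA A, σ • x = x) :
    ∃ s₁ s₂ : ZMod m,
      (∀ c, kapOrd (gaussOne M q A hqM hA) m (modX₁ hA (gaussOne M q A hqM hA) c) x =
        s₁ * (((modX₁ hA (gaussOne M q A hqM hA) c).ord (H₂ (gaussOne M q A hqM hA)) : ℤ) :
          ZMod m)) ∧
      (∀ c, kapOrd (modD2 hqM (gaussOne M q A hqM hA)) m (modX₂ (gaussOne M q A hqM hA) c) x =
        s₂ * (((modX₂ (gaussOne M q A hqM hA) c).ord (H₂ (gaussOne M q A hqM hA)) : ℤ) :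
          ZMod m)) := by
  have hy : pullUp M r q x ∈ tors (M * r * q) (m : ℤ) := mem_tors_pullUp_gen r hx
  have hfix' : ∀ σ ∈ IA A, σ • pullUp M r q x = pullUp M r q x := fun σ hσ => by
    rw [← pullUp_smul, hfix σ hσ]
  obtain ⟨h1, h2⟩ := kapOrd_const_tame hqMr hA h5 hν2 hν3 hm.out hy hfix'
  obtain ⟨t₁, ht₁⟩ := exists_const_of_forall_eq _ h1
  obtain ⟨t₂, ht₂⟩ := exists_const_of_forall_eq _ h2
  obtain ⟨e₁, e₂⟩ := eis_of_const_gen hqM hqMr hA h5 hν2 hν3 h12 (modG_spec M q)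
    (modG_spec (M * r) q) (modGk_spec hqM hA) (modGk_spec hqMr hA) (smul_eq_zero_of_mem_tors hx)
    t₁ t₂ ht₁ ht₂
  exact ⟨_, _, e₁, e₂⟩

/-- **the tame `(M′)` at every level `M q`** (`q ≥ 5`, `q ∤ M`), `kapOrd` form: the auxiliary level is
`(36 M) q` -/
theorem kapOrd_eis_tame (hqM : ¬ q ∣ M) (hA : A.LiesOverPrime q) (h5 : 5 ≤ q)
    {m : ℕ} [hm : Fact m.Prime] (h12 : ¬ m ∣ 12)
    {x : JZero (M * q)} (hx : x ∈ tors (M * q) (m : ℤ)) (hfix : ∀ σ ∈ IA A, σ • x = x) :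
    ∃ s₁ s₂ : ZMod m,
      (∀ c, kapOrd (gaussOne M q A hqM hA) m (modX₁ hA (gaussOne M q A hqM hA) c) x =
        s₁ * (((modX₁ hA (gaussOne M q A hqM hA) c).ord (H₂ (gaussOne M q A hqM hA)) : ℤ) :
          ZMod m)) ∧
      (∀ c, kapOrd (modD2 hqM (gaussOne M q A hqM hA)) m (modX₂ (gaussOne M q A hqM hA) c) x =
        s₂ * (((modX₂ (gaussOne M q A hqM hA) c).ord (H₂ (gaussOne M q A hqM hA)) : ℤ) :
          ZMod m)) :=
  kapOrd_eis_tame_aux 36 hqM (not_dvd_mul_thirtySix h5 hqM) hA h5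
    (S36lib.Count.nuTwo_eq_zero_of_four_dvd ⟨M * 9, by ring⟩)
    (S36lib.Count.nuThree_eq_zero_of_nine_dvd ⟨M * 4, by ring⟩) h12 hx hfix

/-- **THE TAME `(M′)`**: for `A ∣ q`, `q ≥ 5`, `q ∤ M`, a prime `m ∤ 12` and an inertia-fixed
`x ∈ J₀(M q)[m]`, the residue vector of `Ψ x` lies in helper2's Eisenstein subgroup -/
theorem resMap_psi_mem_eisSub_tame (hqM : ¬ q ∣ M) (hA : A.LiesOverPrime q) (h5 : 5 ≤ q)
    {m : ℕ} [hm : Fact m.Prime] (h12 : ¬ m ∣ 12)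
    {x : JZero (M * q)} (hx : x ∈ tors (M * q) (m : ℤ)) (hfix : ∀ σ ∈ IA A, σ • x = x) :
    resMap (modNod hqM hA) m (psi (modNod hqM hA) m x) ∈ eisSub (modNod hqM hA) m := by
  obtain ⟨s₁, s₂, e₁, e₂⟩ := kapOrd_eis_tame hqM hA h5 h12 hx hfix
  have hcast : ∀ a : ZMod m, (((a.val : ℕ) : ℤ) : ZMod m) = a := fun a => by
    rw [Int.cast_natCast, ZMod.natCast_zmod_val]
  haveI := modHpdK hqM hA
  refine (mem_eisSub (D := modNod hqM hA) (m := m)).2
    ⟨⟨((s₁.val : ℕ) : ℤ), ?_⟩, ⟨((s₂.val : ℕ) : ℤ), ?_⟩⟩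
  · funext c
    rw [Pi.smul_apply, zsmul_eq_mul, hcast]
    exact (e₁ c).symm
  · funext c
    rw [Pi.smul_apply, zsmul_eq_mul, hcast]
    exact (e₂ c).symm

end Fermat.Agent.S43lib.B0
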